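/-
S18 glue (owner helper18): generic facts on function fields in one variable over an algebraically
closed field of characteristic zero (on top of the S24 library), and the `q`-adic place of a
subfield of a field of Laurent series.
-/
import Mathlib
import Fermat.Agent.S24.FFRH
import Fermat.Agent.S24.CL.PlaceOfVal

set_option autoImplicit false

noncomputable section

namespace Fermat.Agent.S18.Glue

open AlgebraicCurve IntermediateField Fermat.Agent.S24.FF
open scoped WithZero

section CharZero

variable {K F : Type*} [Field K] [Field F] [Algebra K F] [CharZero K] [IsAlgClosed K] [IsFF1 K F]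

variable (K) in
/-- The divisor of a function. -/
def divOf (f : F) : Divisor K F :=
  Finsupp.ofSupportFinite (fun v => v.ord f) (finite_ord_ne_zero (K := K) f)

@[simp]
theorem divOf_apply (f : F) (v : Place K F) : divOf K f v = v.ord f := rfl

theorem degree_divOf (f : F) : Divisor.degree (divOf K f) = 0 := by
  rw [degree_eq_finsum]
  exact finsum_ord_eq_zero f

theorem divOf_mul {f g : F} (hf : f ≠ 0) (hg : g ≠ 0) :
    divOf K (f * g) = divOf K f + divOf K g := by
  ext v
  simp [v.ord_mul hf hg]

theorem divOf_one : divOf K (1 : F) = 0 := by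
  ext v
  simp

theorem exists_const_of_ord_eq_zero {f : F} (h : ∀ v : Place K F, v.ord f = 0) :
    ∃ c : K, f = algebraMap K F c := by
  rcases exists_const_or_transcendental (K := K) f with h' | hf
  · exact h'
  · obtain ⟨s, -, hsum⟩ := exists_finset_ord_pos f hf
    have h0 : ∑ v ∈ s, v.ord f = 0 := Finset.sum_eq_zero (fun v _ => h v)
    rw [h0] at hsum
    have : FiniteDimensional K⟮f⟯ F := IsFF1.finite f hf
    have hpos : 0 < Module.finrank K⟮f⟯ F := Module.finrank_pos
    omega

end CharZero

section QAdic

variable {k : Type*} [Field k] (F : IntermediateField k (LaurentSeries k))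

/-- The `q`-adic valuation on a subfield of `k((q))`. -/
def qVal : Valuation F ℤᵐ⁰ := (Valued.v : Valuation (LaurentSeries k) ℤᵐ⁰).comap (algebraMap F _)

theorem qVal_apply (f : F) : qVal F f = Valued.v (f : LaurentSeries k) := rfl

theorem qVal_algebraMap (a : k) (ha : a ≠ 0) : qVal F (algebraMap k F a) = 1 := by
  rw [qVal_apply]
  have h1 : ((algebraMap k F a : F) : LaurentSeries k) = HahnSeries.C a := by
    rw [IntermediateField.coe_algebraMap_apply, LaurentSeries.algebraMap_apply]
  have hle : ∀ b : k, Valued.v (HahnSeries.C b : LaurentSeries k) ≤ 1 := by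
    intro b
    have := (LaurentSeries.valuation_le_iff_coeff_lt_eq_zero k (D := 0)
      (f := (HahnSeries.C b : LaurentSeries k))).mpr (by
        intro n hn
        rw [HahnSeries.C_apply, HahnSeries.coeff_single_of_ne hn.ne])
    simpa using this
  rw [h1]
  apply le_antisymm (hle a)
  have h2 : (HahnSeries.C a : LaurentSeries k) * HahnSeries.C a⁻¹ = 1 := by
    rw [← map_mul, mul_inv_cancel₀ ha, map_one]
  have h3 : Valued.v (HahnSeries.C a : LaurentSeries k) * Valued.v (HahnSeries.C a⁻¹ :
      LaurentSeries k) = 1 := by rw [← map_mul, h2, map_one]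
  calc (1 : ℤᵐ⁰) = Valued.v (HahnSeries.C a : LaurentSeries k) * Valued.v (HahnSeries.C a⁻¹ :
      LaurentSeries k) := h3.symm
    _ ≤ Valued.v (HahnSeries.C a : LaurentSeries k) * 1 := by gcongr; exact hle _
    _ = _ := mul_one _

/-- If `F` contains an element with a pole at `q = 0`, there is a place of `F` at which an element
has nonnegative (resp. positive) order iff its `q`-expansion has no terms of negative
(resp. nonpositive) degree. -/
theorem exists_qPlace (hF : ∃ f : F, f ≠ 0 ∧ ∀ n : ℤ, n < 1 → (f : LaurentSeries k).coeff n = 0) :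
    ∃ v : Place k F, ∀ f : F, f ≠ 0 →
      (v.ord f = 0 → (∀ n : ℤ, n < 0 → (f : LaurentSeries k).coeff n = 0)) ∧
      ((∀ n : ℤ, n < 1 → (f : LaurentSeries k).coeff n = 0) → 0 < v.ord f) := by
  obtain ⟨f₀, hf₀, hf₀'⟩ := hF
  have hnt : ∃ f : F, f ≠ 0 ∧ qVal F f < 1 := by
    refine ⟨f₀, hf₀, ?_⟩
    have := (LaurentSeries.valuation_le_iff_coeff_lt_eq_zero k (D := 1)
      (f := (f₀ : LaurentSeries k))).mpr hf₀'
    rw [qVal_apply]
    refine lt_of_le_of_lt this ?_
    rw [← WithZero.exp_zero, WithZero.exp_lt_exp]
    norm_num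
  obtain ⟨v, m, hm, hv⟩ := Fermat.Agent.S24.CL.exists_place_of_valuation (K := k) (qVal F)
    (qVal_algebraMap F) hnt
  refine ⟨v, fun f hf => ⟨fun h0 => ?_, fun h1 => ?_⟩⟩
  · have h := hv f hf
    rw [h0, mul_zero, neg_zero] at h
    exact (LaurentSeries.valuation_le_iff_coeff_lt_eq_zero k (D := 0)
      (f := (f : LaurentSeries k))).mp (by rw [neg_zero, ← qVal_apply, h])
  · have h := hv f hf
    have h2 := (LaurentSeries.valuation_le_iff_coeff_lt_eq_zero k (D := 1)
      (f := (f : LaurentSeries k))).mpr h1
    rw [← qVal_apply, h, WithZero.exp_le_exp] at h2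
    by_contra hcon
    have : (m : ℤ) * v.ord f ≤ 0 := mul_nonpos_of_nonneg_of_nonpos (by positivity) (by omega)
    omega

end QAdic

end Fermat.Agent.S18.Glue

end
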