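/-
S18 glue (owner helper18): the abstract form of the argument "key lemma => injectivity of the
reduction map on prime-to-`ℓ` torsion".
-/
import Mathlib
import Fermat.Agent.S18.Glue.FF0

set_option autoImplicit false

noncomputable section

namespace Fermat.Agent.S18.Glue

open AlgebraicCurve IntermediateField Fermat.Agent.S24.FF

variable {K F k Fk R : Type*} [Field K] [Field F] [Algebra K F] [CharZero K] [IsAlgClosed K]
  [IsFF1 K F] [Field k] [Field Fk] [Algebra k Fk] [CommRing R]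

/-- The abstract data: a ring `R` of "integral elements", with its maps to the two function
fields, and a reduction map on places. -/
structure GlueData (yF : R →+* F) (yk : R →+* Fk) (r : Place K F → Place k Fk) : Prop where
  deg_eq : ∀ P, (r P).deg = P.deg
  map_div : ∀ y : R, yk y ≠ 0 → ∀ Q, Finsupp.mapDomain r (divOf K (yF y)) Q = Q.ord (yk y)
  ne_zero : ∀ y : R, yk y ≠ 0 → yF y ≠ 0
  lift : ∀ g : Fk, ∃ P Q : R, yk Q ≠ 0 ∧ g * yk Q = yk P
  gen : ∀ D ∈ Divisor.principal (K := K) (F := F), ∃ Y₁ Y₂ : R, yk Y₁ ≠ 0 ∧ yk Y₂ ≠ 0 ∧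
    D = divOf K (yF Y₁) - divOf K (yF Y₂)
  value : ∃ v : Place k Fk, ∀ x : Fk, v.ord x = 0 → ∃ (c : R) (a : K) (b : k),
    yF c = algebraMap K F a ∧ yk c = algebraMap k Fk b ∧ (x - yk c = 0 ∨ 0 < v.ord (x - yk c))

variable {yF : R →+* F} {yk : R →+* Fk} {r : Place K F → Place k Fk}

/-- An effective divisor of degree zero in the image of `r_*` vanishes. -/
theorem eq_zero_of_nonneg_of_degree (hdeg : ∀ P, (r P).deg = P.deg) (D : Divisor K F)
    (h0 : Divisor.degree D = 0) (hpos : ∀ Q, 0 ≤ Finsupp.mapDomain r D Q) :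
    Finsupp.mapDomain r D = 0 := by
  classical
  have hdm : ∀ E : Divisor K F, Divisor.degree (Finsupp.mapDomain r E) = Divisor.degree E := by
    intro E
    induction E using Finsupp.induction with
    | zero => simp
    | single_add P n E _ _ ih =>
      rw [Finsupp.mapDomain_add, map_add, map_add, ih, Finsupp.mapDomain_single,
        Divisor.degree_single, Divisor.degree_single, hdeg]
  have h1 : Divisor.degree (Finsupp.mapDomain r D) = 0 := by
    rw [hdm, h0]
  have h2 : Divisor.degree (Finsupp.mapDomain r D) =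
      ∑ Q ∈ (Finsupp.mapDomain r D).support, Finsupp.mapDomain r D Q := by
    simp only [Divisor.degree, Finsupp.liftAddHom_apply, Finsupp.sum, AddMonoidHom.coe_mulRight]
    refine Finset.sum_congr rfl fun Q hQ => ?_
    have hQr : Q ∈ Set.range r := by
      by_contra hcon
      exact (Finsupp.mem_support_iff.mp hQ) (Finsupp.mapDomain_of_notMem_range _ _ hcon)
    obtain ⟨P, rfl⟩ := hQr
    rw [hdeg, deg_eq_one, Nat.cast_one, mul_one]
  rw [h2] at h1
  have h3 := (Finset.sum_eq_zero_iff_of_nonneg (fun Q _ => hpos Q)).mp h1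
  ext Q
  by_cases hQ : Q ∈ (Finsupp.mapDomain r D).support
  · exact h3 Q hQ
  · simpa using hQ

/-- If the reductions of two integral elements have the same divisor, they are proportional. -/
theorem GlueData.exists_const (G : GlueData yF yk r) {Y₁ Y₂ : R} (h1 : yk Y₁ ≠ 0) (h2 : yk Y₂ ≠ 0)
    (hord : ∀ Q : Place k Fk, Q.ord (yk Y₁) = Q.ord (yk Y₂)) :
    ∃ (c : R) (a : K), yF c = algebraMap K F a ∧ yk Y₁ = yk (c * Y₂) := by
  obtain ⟨v, hv⟩ := G.value
  set x : Fk := yk Y₁ / yk Y₂ with hx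
  have hxord : ∀ Q : Place k Fk, Q.ord x = 0 := by
    intro Q
    rw [hx, div_eq_mul_inv, Q.ord_mul h1 (inv_ne_zero h2), Q.ord_inv, hord Q, add_neg_cancel]
  obtain ⟨c, a, b, hca, hcb, hc⟩ := hv x (hxord v)
  refine ⟨c, a, hca, ?_⟩
  set Z : R := Y₁ - c * Y₂ with hZ
  by_contra hne
  have hZ0 : yk Z ≠ 0 := by
    rw [hZ, map_sub, sub_ne_zero]
    exact hne
  have hZx : yk Z / yk Y₂ = x - yk c := by
    rw [hZ, map_sub, map_mul, sub_div, mul_div_assoc, div_self h2, mul_one]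
  have hy0 : x - yk c ≠ 0 := by
    rw [← hZx]
    exact div_ne_zero hZ0 h2
  have hmap : ∀ Q, Finsupp.mapDomain r (divOf K (yF Z) - divOf K (yF Y₂)) Q =
      Q.ord (x - yk c) := by
    intro Q
    rw [Finsupp.mapDomain_sub, Finsupp.sub_apply, G.map_div _ hZ0, G.map_div _ h2,
      ← hZx, div_eq_mul_inv, Q.ord_mul hZ0 (inv_ne_zero h2), Q.ord_inv, sub_eq_add_neg]
  have hzero := eq_zero_of_nonneg_of_degree G.deg_eq (divOf K (yF Z) - divOf K (yF Y₂))
    (by rw [map_sub, degree_divOf, degree_divOf, sub_zero]) (by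
      intro Q
      rw [hmap Q]
      apply ord_nonneg_of_mem
      refine sub_mem (mem_of_ord_nonneg Q (hxord Q).ge) ?_
      rw [hcb]
      exact Q.algebraMap_mem' _)
  have hv0 : v.ord (x - yk c) = 0 := by
    rw [← hmap v, hzero, Finsupp.zero_apply]
  rcases hc with hc | hc
  · exact hy0 hc
  · omega

/-- The abstract form of S18. -/
theorem GlueData.isPrincipal (G : GlueData yF yk r) {m : ℕ} (hm0 : m ≠ 0)
    (hKL : ∀ P Q : R, yk P = yk Q → yk Q ≠ 0 → (∀ v : Place K F, (m : ℤ) ∣ v.ord (yF P / yF Q)) →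
      ∃ u : F, yF P / yF Q = u ^ m)
    (D : Divisor K F) (h1 : Divisor.IsPrincipal (m • D))
    (h2 : Divisor.IsPrincipal (Finsupp.mapDomain r D)) : Divisor.IsPrincipal D := by
  obtain ⟨f, hf0, hf⟩ := h1
  obtain ⟨g, hg0, hg⟩ := h2
  obtain ⟨P, Q, hQ0, hgPQ'⟩ := G.lift g
  have hP0 : yk P ≠ 0 := by rw [← hgPQ']; exact mul_ne_zero hg0 hQ0
  have hPF := G.ne_zero _ hP0
  have hQF := G.ne_zero _ hQ0
  -- the modified divisor
  set D' : Divisor K F := D - divOf K (yF P) + divOf K (yF Q) with hD'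
  have hrD' : Finsupp.mapDomain r D' = 0 := by
    ext R
    rw [hD', Finsupp.mapDomain_add, Finsupp.mapDomain_sub, Finsupp.add_apply, Finsupp.sub_apply,
      G.map_div _ hP0, G.map_div _ hQ0, hg R, ← hgPQ', R.ord_mul hg0 hQ0, Finsupp.zero_apply]
    ring
  have hmD' : m • D' ∈ Divisor.principal (K := K) (F := F) := by
    refine ⟨f * (yF P ^ m)⁻¹ * yF Q ^ m, ?_, fun v => ?_⟩
    · exact mul_ne_zero (mul_ne_zero hf0 (inv_ne_zero (pow_ne_zero _ hPF))) (pow_ne_zero _ hQF)
    · rw [v.ord_mul (mul_ne_zero hf0 (inv_ne_zero (pow_ne_zero _ hPF))) (pow_ne_zero _ hQF),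
        v.ord_mul hf0 (inv_ne_zero (pow_ne_zero _ hPF)), v.ord_inv, ord_pow, ord_pow, ← hf v, hD']
      simp only [Finsupp.smul_apply, Finsupp.add_apply, Finsupp.sub_apply, divOf_apply,
        nsmul_eq_mul]
      ring
  obtain ⟨Y₁, Y₂, hY1, hY2, hY⟩ := G.gen _ hmD'
  have hord : ∀ R : Place k Fk, R.ord (yk Y₁) = R.ord (yk Y₂) := by
    intro R
    have h3 : Finsupp.mapDomain r (m • D') R = 0 := by
      rw [Finsupp.mapDomain_smul, hrD', smul_zero, Finsupp.zero_apply]
    rw [hY, Finsupp.mapDomain_sub, Finsupp.sub_apply, G.map_div _ hY1, G.map_div _ hY2] at h3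
    omega
  obtain ⟨c, a, hca, hc⟩ := G.exists_const hY1 hY2 hord
  have hcY0 : yk (c * Y₂) ≠ 0 := hc ▸ hY1
  have hY1F := G.ne_zero _ hY1
  have hY2F := G.ne_zero _ hY2
  have hcYF := G.ne_zero _ hcY0
  have hc0 : yF c ≠ 0 := by
    intro h0
    apply hcYF
    rw [map_mul, h0, zero_mul]
  have h4 : ∀ v : Place K F, v.ord (yF Y₁ / yF (c * Y₂)) = (m : ℤ) * D' v := by
    intro v
    have h5 : (m • D') v = (m : ℤ) * D' v := by rw [Finsupp.smul_apply, nsmul_eq_mul]
    rw [← h5, hY, div_eq_mul_inv, v.ord_mul hY1F (inv_ne_zero hcYF),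
      v.ord_inv, map_mul, v.ord_mul hc0 hY2F, hca, ord_algebraMap]
    simp only [Finsupp.sub_apply, divOf_apply]
    ring
  obtain ⟨u, hu⟩ := hKL Y₁ (c * Y₂) hc hcY0 (fun v => by rw [h4]; exact dvd_mul_right _ _)
  have hu0 : u ≠ 0 := by
    intro h0
    rw [h0, zero_pow hm0] at hu
    exact div_ne_zero hY1F hcYF hu
  have hD'u : ∀ v : Place K F, D' v = v.ord u := by
    intro v
    have h6 := h4 v
    rw [hu, ord_pow] at h6
    have hm' : (m : ℤ) ≠ 0 := by exact_mod_cast hm0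
    exact (mul_left_cancel₀ hm' h6).symm
  refine ⟨u * yF P * (yF Q)⁻¹, mul_ne_zero (mul_ne_zero hu0 hPF) (inv_ne_zero hQF), fun v => ?_⟩
  rw [v.ord_mul (mul_ne_zero hu0 hPF) (inv_ne_zero hQF), v.ord_mul hu0 hPF, v.ord_inv, ← hD'u v,
    hD']
  simp only [Finsupp.add_apply, Finsupp.sub_apply, divOf_apply]
  ring

end Fermat.Agent.S18.Glue

end
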