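/-
S18 glue (owner helper18): integral elements of the function field of `X₀(N)` and lifting of
elements of the characteristic `ℓ` function field to quotients of integral elements.
-/
import Mathlib
import Fermat.Prelude.Def_ModularCurve_ReductionModL

set_option autoImplicit false

noncomputable section

namespace Fermat.Agent.S18.Glue

open ModularCurve AlgebraicCurve HahnSeries IntermediateField

/-- `ℚ̄`. -/
abbrev Kb : Type := AlgebraicClosure ℚ

variable (A : ValuationSubring Kb) (N : ℕ)

/-- The residue field of `A`. -/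
abbrev kk : Type := IsLocalRing.ResidueField A

/-- The reduction map on Laurent series. -/
abbrev red : LaurentSeries A →+* LaurentSeries (kk A) := coeffMap (IsLocalRing.residue A)

/-- The inclusion map on Laurent series. -/
abbrev inc : LaurentSeries A →+* LaurentSeries Kb := coeffMap A.subtype

/-- The subring of `A((q))` of the series lying in the function field, whose reduction lies in the
function field in characteristic `ℓ`. -/
def intElt : Subring (LaurentSeries A) :=
  (modularFunctionFieldBar N).toSubfield.toSubring.comap (inc A) ⊓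
    (modularFunctionFieldFullC (kk A) N).toSubfield.toSubring.comap (red A)

variable {A N}

theorem mem_intElt {y : LaurentSeries A} :
    y ∈ intElt A N ↔ inc A y ∈ modularFunctionFieldBar N ∧
      red A y ∈ modularFunctionFieldFullC (kk A) N := Iff.rfl

theorem inc_injective : Function.Injective (inc A) := by
  intro x y h
  ext n
  have := congrArg (fun z => z.coeff n) h
  simpa using this

theorem single_mem_intElt (a : A) : HahnSeries.single (0 : ℤ) a ∈ intElt A N := by
  rw [mem_intElt]
  constructor
  · rw [coeffMap_single, ← algebraMap_laurentSeries_eq_single]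
    exact IntermediateField.algebraMap_mem _ _
  · rw [coeffMap_single, ← algebraMap_laurentSeries_eq_single]
    exact IntermediateField.algebraMap_mem _ _

theorem jqNModC_mem_intElt {d : ℕ} [NeZero d] (hd : d ∣ N) : jqNModC A d ∈ intElt A N := by
  rw [mem_intElt]
  constructor
  · have h1 : inc A (jqNModC A d) = coeffEmb Kb (qExpand ℚ d jq) := by
      rw [coeffMap_jqNModC, coeffEmb, ← jqModC_rat, ← jqNModC, coeffMap_jqNModC]
    rw [h1]
    exact coeffEmb_mem_laurentBaseChange Kb (jqd_mem_full N hd)
  · rw [coeffMap_jqNModC]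
    exact jqModCd_mem_full _ N hd

/-- Every element of the function field in characteristic `ℓ` is a quotient of reductions of
integral elements. -/
theorem exists_lift {g : LaurentSeries (kk A)} (hg : g ∈ modularFunctionFieldFullC (kk A) N) :
    ∃ P ∈ intElt A N, ∃ Q ∈ intElt A N, red A Q ≠ 0 ∧ g * red A Q = red A P := by
  unfold modularFunctionFieldFullC at hg
  induction hg using IntermediateField.adjoin_induction with
  | mem x hx =>
    obtain ⟨d, hne, hd, rfl⟩ := hx
    refine ⟨jqNModC A d, jqNModC_mem_intElt hd, 1, one_mem _, ?_, ?_⟩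
    · rw [map_one]; exact one_ne_zero
    · rw [map_one, mul_one, coeffMap_jqNModC]; rfl
  | algebraMap c =>
    obtain ⟨a, rfl⟩ := IsLocalRing.residue_surjective c
    refine ⟨HahnSeries.single 0 a, single_mem_intElt a, 1, one_mem _, ?_, ?_⟩
    · rw [map_one]; exact one_ne_zero
    · rw [map_one, mul_one, coeffMap_single, algebraMap_laurentSeries_eq_single]
  | add x y _ _ hx hy =>
    obtain ⟨P, hP, Q, hQ, hQ0, h⟩ := hx
    obtain ⟨P', hP', Q', hQ', hQ0', h'⟩ := hy
    refine ⟨P * Q' + P' * Q, add_mem (mul_mem hP hQ') (mul_mem hP' hQ), Q * Q', mul_mem hQ hQ',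
      ?_, ?_⟩
    · rw [map_mul]; exact mul_ne_zero hQ0 hQ0'
    · rw [map_mul, map_add, map_mul, map_mul, ← h, ← h']; ring
  | inv x _ hx =>
    obtain ⟨P, hP, Q, hQ, hQ0, h⟩ := hx
    by_cases hx0 : x = 0
    · refine ⟨0, zero_mem _, 1, one_mem _, ?_, ?_⟩
      · rw [map_one]; exact one_ne_zero
      · rw [hx0]; simp
    · have hP0 : red A P ≠ 0 := by rw [← h]; exact mul_ne_zero hx0 hQ0
      refine ⟨Q, hQ, P, hP, hP0, ?_⟩
      rw [← h, ← mul_assoc, inv_mul_cancel₀ hx0, one_mul]
  | mul x y _ _ hx hy =>
    obtain ⟨P, hP, Q, hQ, hQ0, h⟩ := hx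
    obtain ⟨P', hP', Q', hQ', hQ0', h'⟩ := hy
    refine ⟨P * P', mul_mem hP hP', Q * Q', mul_mem hQ hQ', ?_, ?_⟩
    · rw [map_mul]; exact mul_ne_zero hQ0 hQ0'
    · rw [map_mul, map_mul, ← h, ← h']; ring

end Fermat.Agent.S18.Glue

end
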