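/-
S18 glue (owner helper18): the frozen statement S18 follows from the key lemma `KL`.
-/
import Mathlib
import Fermat.Agent.S18.Glue.Lift
import Fermat.Agent.S18.Glue.Abstract
import Fermat.Agent.S24.Export.Ramification
import Fermat.Agent.GAL.KLStatement

set_option autoImplicit false
set_option synthInstance.maxHeartbeats 400000

noncomputable section

namespace Fermat.Agent.S18.Glue

open ModularCurve AlgebraicCurve HahnSeries IntermediateField Fermat.Agent.S24.FF

variable {A : ValuationSubring Kb} {N : ℕ}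

/-- The function field of `X₀(N)` over `ℚ̄`. -/
abbrev FF (N : ℕ) : Type := ↥(modularFunctionFieldBar N)

/-- The function field of `X₀(N)` in characteristic `ℓ`. -/
abbrev Fk (A : ValuationSubring Kb) (N : ℕ) : Type := ↥(modularFunctionFieldFullC (kk A) N)

/-- An integral element, as an element of the function field. -/
def yF : intElt A N →+* FF N where
  toFun y := ⟨inc A y, y.2.1⟩
  map_one' := Subtype.ext (map_one (inc A))
  map_mul' x y := Subtype.ext (map_mul (inc A) x.1 y.1)
  map_zero' := Subtype.ext (map_zero (inc A))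
  map_add' x y := Subtype.ext (map_add (inc A) x.1 y.1)

/-- The reduction of an integral element. -/
def yk : intElt A N →+* Fk A N where
  toFun y := ⟨red A y, y.2.2⟩
  map_one' := Subtype.ext (map_one (red A))
  map_mul' x y := Subtype.ext (map_mul (red A) x.1 y.1)
  map_zero' := Subtype.ext (map_zero (red A))
  map_add' x y := Subtype.ext (map_add (red A) x.1 y.1)

theorem coe_yF (y : intElt A N) : (yF y : LaurentSeries Kb) = inc A y := rfl

theorem coe_yk (y : intElt A N) : (yk y : LaurentSeries (kk A)) = red A y := rfl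

theorem yF_ne_zero {y : intElt A N} (hy : yk y ≠ 0) : yF y ≠ 0 := by
  intro h
  apply hy
  have h1 : inc A (y : LaurentSeries A) = 0 := congrArg Subtype.val h
  have h2 : (y : LaurentSeries A) = 0 := inc_injective (by rw [h1, map_zero])
  have h3 : y = 0 := Subtype.ext h2
  rw [h3, map_zero]

/-- A constant, as an integral element. -/
def const (c : A) : intElt A N := ⟨HahnSeries.single 0 c, single_mem_intElt c⟩

theorem yk_const (c : A) :
    yk (const (N := N) c) = algebraMap (kk A) (Fk A N) (IsLocalRing.residue A c) := by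
  apply Subtype.ext
  rw [coe_yk, IntermediateField.coe_algebraMap_apply, algebraMap_laurentSeries_eq_single]
  exact coeffMap_single _ _ _

theorem yF_const (c : A) :
    yF (const (N := N) c) = algebraMap Kb (FF N) (c : Kb) := by
  apply Subtype.ext
  rw [coe_yF, IntermediateField.coe_algebraMap_apply, algebraMap_laurentSeries_eq_single]
  exact coeffMap_single _ _ _

/-- The function field in characteristic `ℓ` contains an element vanishing at `q = 0`. -/
theorem exists_vanishing (k : Type*) [Field k] :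
    ∃ f : ↥(modularFunctionFieldFullC k N), f ≠ 0 ∧
      ∀ n : ℤ, n < 1 → (f : LaurentSeries k).coeff n = 0 := by
  set p : PowerSeries k := jNum.map (Int.castRingHom k) with hp
  have hp0 : PowerSeries.constantCoeff p ≠ 0 := by
    rw [hp, ← PowerSeries.coeff_zero_eq_constantCoeff_apply, PowerSeries.coeff_map,
      PowerSeries.coeff_zero_eq_constantCoeff_apply, constantCoeff_jNum]
    simp
  set f₀ : LaurentSeries k := HahnSeries.single (1 : ℤ) 1 * HahnSeries.ofPowerSeries ℤ k p⁻¹
    with hf₀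
  have hmul : jqModC k * f₀ = 1 := by
    rw [jqModC, hf₀, mul_mul_mul_comm, ← map_mul (HahnSeries.ofPowerSeries ℤ k), ← hp,
      PowerSeries.mul_inv_cancel p hp0, map_one (HahnSeries.ofPowerSeries ℤ k), mul_one,
      HahnSeries.single_mul_single]
    simp
  have hinv : f₀ = (jqModC k)⁻¹ := eq_inv_of_mul_eq_one_right hmul
  have hmem : f₀ ∈ modularFunctionFieldFullC k N := by
    rw [hinv]
    exact inv_mem (jqModC_mem_full k N)
  refine ⟨⟨f₀, hmem⟩, ?_, ?_⟩
  · intro h
    have h0 : f₀ = 0 := congrArg Subtype.val h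
    rw [h0, mul_zero] at hmul
    exact zero_ne_one hmul
  · intro n hn
    show f₀.coeff n = 0
    rw [hf₀, HahnSeries.coeff_single_mul, one_mul]
    exact ofPowerSeries_coeff_of_neg _ (by omega)

theorem exists_value : ∃ v : Place (kk A) (Fk A N), ∀ x : Fk A N, v.ord x = 0 →
    ∃ (c : intElt A N) (a : Kb) (b : kk A), yF c = algebraMap Kb (FF N) a ∧
      yk c = algebraMap (kk A) (Fk A N) b ∧ (x - yk c = 0 ∨ 0 < v.ord (x - yk c)) := by
  obtain ⟨v, hv⟩ := exists_qPlace (modularFunctionFieldFullC (kk A) N) (exists_vanishing (kk A))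
  refine ⟨v, fun x hx => ?_⟩
  obtain ⟨c, hc⟩ := IsLocalRing.residue_surjective ((x : LaurentSeries (kk A)).coeff 0)
  refine ⟨const c, c, _, yF_const c, yk_const c, ?_⟩
  by_cases h0 : x - yk (const c) = 0
  · exact Or.inl h0
  refine Or.inr ((hv _ h0).2 ?_)
  have hx0 : x ≠ 0 := by
    rintro rfl
    apply h0
    have : IsLocalRing.residue A c = 0 := by rw [hc]; rfl
    rw [yk_const, this, map_zero, sub_zero]
  intro n hn
  rw [yk_const, AddSubgroupClass.coe_sub, HahnSeries.coeff_sub,
    IntermediateField.coe_algebraMap_apply, algebraMap_laurentSeries_eq_single]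
  rcases lt_or_eq_of_le (Int.lt_add_one_iff.mp (by simpa using hn) : n ≤ 0) with hn' | rfl
  · rw [(hv x hx0).1 hx n hn', HahnSeries.coeff_single_of_ne hn'.ne, sub_zero]
  · rw [HahnSeries.coeff_single_same, hc, sub_self]

variable [NeZero N]

instance instIsFF1 : IsFF1 Kb (FF N) := Fermat.Agent.S24.Export.isFF1 N

variable {r : Place Kb (FF N) → Place (kk A) (Fk A N)}

theorem mapDomain_divOf (hr : IsPlaceReductionAlong A (IsLocalRing.residue A) N r)
    {y : intElt A N} (hy : yk y ≠ 0) (Q : Place (kk A) (Fk A N)) :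
    Finsupp.mapDomain r (divOf Kb (yF y)) Q = Q.ord (yk y) :=
  hr.2 y.1 y.2.1 y.2.2 (fun h => hy (Subtype.ext h)) (divOf Kb (yF y)) (fun _ => rfl) Q

theorem exists_of_mem_closure {D : Divisor Kb (FF N)}
    (hD : D ∈ AddSubgroup.closure (integralPrincipalDivisors A (IsLocalRing.residue A) N)) :
    ∃ Y₁ Y₂ : intElt A N, yk Y₁ ≠ 0 ∧ yk Y₂ ≠ 0 ∧
      D = divOf Kb (yF Y₁) - divOf Kb (yF Y₂) := by
  induction hD using AddSubgroup.closure_induction with
  | mem E hE =>
    obtain ⟨y, hy, hyk, hne, hE⟩ := hE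
    refine ⟨⟨y, hy, hyk⟩, 1, fun h => hne (congrArg Subtype.val h), ?_, ?_⟩
    · rw [map_one]; exact one_ne_zero
    · rw [map_one, divOf_one, sub_zero]
      ext P
      exact hE P
  | zero =>
    refine ⟨1, 1, ?_, ?_, ?_⟩
    · rw [map_one]; exact one_ne_zero
    · rw [map_one]; exact one_ne_zero
    · rw [sub_self]
  | add E E' _ _ hE hE' =>
    obtain ⟨Y₁, Y₂, h1, h2, rfl⟩ := hE
    obtain ⟨Y₁', Y₂', h1', h2', rfl⟩ := hE'
    refine ⟨Y₁ * Y₁', Y₂ * Y₂', ?_, ?_, ?_⟩
    · rw [map_mul]; exact mul_ne_zero h1 h1'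
    · rw [map_mul]; exact mul_ne_zero h2 h2'
    · rw [map_mul, map_mul, divOf_mul (yF_ne_zero h1) (yF_ne_zero h1'),
        divOf_mul (yF_ne_zero h2) (yF_ne_zero h2')]
      abel
  | neg E _ hE =>
    obtain ⟨Y₁, Y₂, h1, h2, rfl⟩ := hE
    exact ⟨Y₂, Y₁, h2, h1, by abel⟩

theorem glueData (hr : IsPlaceReductionAlong A (IsLocalRing.residue A) N r)
    (hgen : PrincipalGeneratedByIntegral A (IsLocalRing.residue A) N) :
    GlueData (K := Kb) (k := kk A) (yF (A := A) (N := N)) yk r where
  deg_eq := hr.1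
  map_div _ hy Q := mapDomain_divOf hr hy Q
  ne_zero _ hy := yF_ne_zero hy
  lift g := by
    obtain ⟨P₁, hP₁, Q₁, hQ₁, hQ₁0, hgPQ⟩ := exists_lift (A := A) (N := N) g.2
    exact ⟨⟨P₁, hP₁⟩, ⟨Q₁, hQ₁⟩, fun h => hQ₁0 (congrArg Subtype.val h), Subtype.ext hgPQ⟩
  gen D hD := exists_of_mem_closure (hgen hD)
  value := exists_value

/-- **S18 from the key lemma.** -/
theorem eq_zero_of_KL {m : ℕ} (hm0 : m ≠ 0) (hKL : Fermat.Agent.GAL.KL N A m)
    (h : ReductionInputsModL A N) (z : JZero N) (hmz : m • z = 0)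
    (hz : reductionModL A N z = 0) : z = 0 := by
  obtain ⟨D, rfl⟩ := Pic0.mk_surjective z
  have hr : IsPlaceReductionAlong A (IsLocalRing.residue A) N (placeReductionModL h) :=
    isPlaceReductionModL_placeReductionModL h
  have hgen : PrincipalGeneratedByIntegral A (IsLocalRing.residue A) N := h.choose_spec.2
  have G := glueData hr hgen
  -- `m D` is principal
  have h1 : m • D ∈ (Divisor.principal (K := Kb) (F := FF N)).addSubgroupOf
      (Divisor.degZero (K := Kb) (F := FF N)) :=
    (QuotientAddGroup.eq_zero_iff _).mp hmz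
  have h1' : Divisor.IsPrincipal (m • (D : Divisor Kb (FF N))) := h1
  -- the reduction of `D` is principal
  rw [reductionModL_mk h D] at hz
  have h2 := (QuotientAddGroup.eq_zero_iff _).mp hz
  have h2' : Divisor.IsPrincipal
      (Finsupp.mapDomain (placeReductionModL h) (D : Divisor Kb (FF N))) := h2
  have h3 := G.isPrincipal hm0 (fun P Q hPQ hQ hdvd =>
    hKL P.1 Q.1 P.2.1 Q.2.1 (congrArg Subtype.val hPQ) (fun h0 => hQ (Subtype.ext h0)) hdvd)
    _ h1' h2'
  exact (QuotientAddGroup.eq_zero_iff _).mpr h3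

/-- The frozen statement S18, from the statement of the key lemma. -/
theorem result_of_KLStatement (hKL : Fermat.Agent.GAL.KLStatement) (N : ℕ) [NeZero N] {ℓ : ℕ}
    [Fact ℓ.Prime] (hℓN : ¬ ℓ ∣ N) (A : ValuationSubring (AlgebraicClosure ℚ))
    (hA : A.LiesOverPrime ℓ) (h : ModularCurve.ReductionInputsModL A N) (m : ℕ) (hm : ¬ ℓ ∣ m)
    (z : ModularCurve.JZero N) (hmz : m • z = 0) (hz : ModularCurve.reductionModL A N z = 0) :
    z = 0 :=
  eq_zero_of_KL (by rintro rfl; exact hm (dvd_zero _)) (hKL N ℓ hℓN A hA m hm) h z hmz hz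

end Fermat.Agent.S18.Glue

end
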